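import Mathlib
import Fermat.Prelude.Def_JacJ1Iface
import Fermat.Prelude.Def_GoodReductionJacobian_RelativeGroupLawKernel

/-!
# Abelian varieties over a field: groups of points

Basic bundled data used for the count of `n`-torsion points, the groups of points with values
in `K`-algebras, their functoriality, and the extension of points along valuation rings.
-/

set_option autoImplicit false

noncomputable section

universe u

open CategoryTheory CategoryTheory.Limits AlgebraicGeometry NeronModelInfra GoodReductionJacobian

namespace FermatLib.AV.Tors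

/-- An integral proper smooth commutative group scheme of relative dimension `g` over `K`. -/
structure AVData (K : Type u) [Field K] (g : ℕ) where
  X : Scheme.{u}
  str : X ⟶ Spec (CommRingCat.of K)
  law : RelativeGroupLaw K str
  comm : law.IsCommutative
  [proper : IsProper str]
  [smoothDim : SmoothOfRelativeDimension g str]
  [integral : IsIntegral X]

attribute [instance] AVData.proper AVData.smoothDim AVData.integral

variable {K : Type u} [Field K] {g : ℕ}

namespace AVData

variable (A : AVData K g)

/-- The structure morphism of `Spec R` for a `K`-algebra `R`. -/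
abbrev base (_A : AVData K g) (R : Type u) [CommRing R] [Algebra K R] :
    Spec (CommRingCat.of R) ⟶ Spec (CommRingCat.of K) :=
  Spec.map (CommRingCat.ofHom (algebraMap K R))

theorem base_self : A.base K = 𝟙 _ := by
  simp [AVData.base]

/-- Points with values in a `K`-algebra. -/
abbrev Pt (R : Type u) [CommRing R] [Algebra K R] : Type u :=
  SchemeHomOver (A.base R) A.str

variable {R S T : Type u} [CommRing R] [Algebra K R] [CommRing S] [Algebra K S]
  [CommRing T] [Algebra K T]

instance : Add (A.Pt R) := ⟨A.law.mul (A.base R)⟩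
instance : Zero (A.Pt R) := ⟨A.law.one (A.base R)⟩
instance : Neg (A.Pt R) := ⟨A.law.inv (A.base R)⟩

instance instAddCommGroupPt : AddCommGroup (A.Pt R) where
  add_assoc := A.law.mul_assoc _
  zero_add := A.law.one_mul _
  add_zero := A.law.mul_one _
  neg_add_cancel := A.law.inv_mul_cancel _
  add_comm := A.comm _
  nsmul := nsmulRec
  zsmul := zsmulRec

theorem nsmul_eq (n : ℕ) (x : A.Pt R) : A.law.nsmul (A.base R) n x = n • x := by
  induction n with
  | zero => rw [zero_nsmul]; rfl
  | succ n ih => rw [succ_nsmul, RelativeGroupLaw.nsmul_succ, ih]; rfl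

theorem map_base (φ : R →ₐ[K] S) :
    Spec.map (CommRingCat.ofHom φ.toRingHom) ≫ A.base R = A.base S := by
  rw [← Spec.map_comp, ← CommRingCat.ofHom_comp]
  congr 2
  exact φ.comp_algebraMap

/-- Functoriality of points. -/
def map (φ : R →ₐ[K] S) : A.Pt R →+ A.Pt S :=
  AddMonoidHom.mk' (schemeHomOverComp (Spec.map (CommRingCat.ofHom φ.toRingHom)) (A.map_base φ))
    fun x y => A.law.mul_natural _ _ _ _ x y

theorem map_coe (φ : R →ₐ[K] S) (x : A.Pt R) :
    (A.map φ x).1 = Spec.map (CommRingCat.ofHom φ.toRingHom) ≫ x.1 := rfl

@[simp]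
theorem map_id (x : A.Pt R) : A.map (AlgHom.id K R) x = x :=
  Subtype.ext (by simp [map_coe])

theorem map_map (ψ : S →ₐ[K] T) (φ : R →ₐ[K] S) (x : A.Pt R) :
    A.map ψ (A.map φ x) = A.map (ψ.comp φ) x :=
  Subtype.ext (by
    rw [map_coe, map_coe, map_coe, ← Spec.map_comp_assoc]
    rfl)

theorem map_comp (ψ : S →ₐ[K] T) (φ : R →ₐ[K] S) :
    A.map (ψ.comp φ) = (A.map ψ).comp (A.map φ) :=
  AddMonoidHom.ext fun x => (A.map_map ψ φ x).symm

/-- Points with values in a valuation ring are the points with values in its fraction field. -/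
theorem map_bijective_of_isFractionRing (V L : Type u) [CommRing V] [IsDomain V]
    [ValuationRing V] [Field L] [Algebra V L] [IsFractionRing V L] [Algebra K V] [Algebra K L]
    [IsScalarTower K V L] :
    Function.Bijective (A.map (IsScalarTower.toAlgHom K V L)) := by
  have hc : ValuativeCriterion A.str :=
    ((IsProper.eq_valuativeCriterion ▸ inferInstanceAs (IsProper A.str)) :
      (ValuativeCriterion ⊓ @QuasiCompact ⊓ @QuasiSeparated ⊓ @LocallyOfFiniteType) A.str).1.1.1
  constructor
  · intro x y h
    have h' := congrArg Subtype.val h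
    rw [map_coe, map_coe] at h'
    let S : ValuativeCommSq A.str :=
      { R := V
        K := L
        i₁ := (A.map (IsScalarTower.toAlgHom K V L) x).1
        i₂ := A.base V
        commSq := ⟨(A.map (IsScalarTower.toAlgHom K V L) x).2.trans
          (A.map_base (IsScalarTower.toAlgHom K V L)).symm⟩ }
    have := hc.uniqueness S
    exact Subtype.ext (congrArg CommSq.LiftStruct.l
      (Subsingleton.elim (α := S.commSq.LiftStruct) ⟨x.1, rfl, x.2⟩ ⟨y.1, h'.symm, y.2⟩))
  · intro z
    let S : ValuativeCommSq A.str :=
      { R := V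
        K := L
        i₁ := z.1
        i₂ := A.base V
        commSq := ⟨z.2.trans (A.map_base (IsScalarTower.toAlgHom K V L)).symm⟩ }
    obtain ⟨l⟩ := (hc.existence S).exists_lift
    exact ⟨⟨l.l, l.fac_right⟩, Subtype.ext l.fac_left⟩

theorem natCard_isTorsionPoint (n : ℕ) :
    Nat.card {x : SchemeHomOver (𝟙 (Spec (CommRingCat.of K))) A.str //
        A.law.IsTorsionPoint (𝟙 (Spec (CommRingCat.of K))) n x} =
      Nat.card {x : A.Pt K // n • x = 0} := by
  have key : ∀ (t t' : Spec (CommRingCat.of K) ⟶ Spec (CommRingCat.of K)), t = t' →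
      Nat.card {x : SchemeHomOver t A.str // A.law.IsTorsionPoint t n x} =
        Nat.card {x : SchemeHomOver t' A.str // A.law.IsTorsionPoint t' n x} := by
    rintro t _ rfl
    rfl
  rw [key _ _ A.base_self.symm]
  refine Nat.card_congr (Equiv.subtypeEquivRight fun x => ?_)
  rw [RelativeGroupLaw.isTorsionPoint_def, nsmul_eq]
  rfl

end AVData

end FermatLib.AV.Tors
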