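import Fermat.Agent.AV.Tors.Eval

/-!
# Locally principal divisors on an abelian variety and dominant endomorphisms

A divisor is given by one local equation at each point, two equations differing by a unit on a
neighbourhood.
-/

set_option autoImplicit false

noncomputable section

universe u

open CategoryTheory CategoryTheory.Limits AlgebraicGeometry IsLocalRing TopologicalSpace
  NeronModelInfra GoodReductionJacobian

namespace FermatLib.AV.Tors

variable {K : Type u} [Field K] {g : ℕ} (A : AVData K g)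

/-- A locally principal divisor, given by an equation at each point. -/
structure CartierDiv where
  eqn : A.X → A.FA
  eqn_ne_zero : ∀ x, eqn x ≠ 0
  loc : ∀ x, ∃ U : A.X.Opens, x ∈ U ∧ ∀ y ∈ U, A.IsUnitAt y (eqn x / eqn y)

/-- A dominant endomorphism of the variety over `K`. -/
structure DomEndo where
  hom : A.X ⟶ A.X
  w : hom ≫ A.str = A.str
  map_generic : hom (genericPoint A.X) = genericPoint A.X

variable {A}

namespace CartierDiv

theorem isUnitAt_of_specializes (D : CartierDiv A) {x y : A.X} (h : y ⤳ x) :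
    A.IsUnitAt y (D.eqn x / D.eqn y) := by
  obtain ⟨U, hx, hU⟩ := D.loc x
  exact hU y (h.mem_open U.isOpen hx)

instance : One (CartierDiv A) :=
  ⟨⟨fun _ => 1, fun _ => one_ne_zero, fun x =>
    ⟨⊤, trivial, fun y _ => by rw [div_one]; exact AVData.isUnitAt_one y⟩⟩⟩

instance : Mul (CartierDiv A) :=
  ⟨fun D E => ⟨fun x => D.eqn x * E.eqn x,
    fun x => mul_ne_zero (D.eqn_ne_zero x) (E.eqn_ne_zero x), fun x => by
      obtain ⟨U, hxU, hU⟩ := D.loc x
      obtain ⟨V, hxV, hV⟩ := E.loc x
      refine ⟨U ⊓ V, ⟨hxU, hxV⟩, fun y hy => ?_⟩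
      rw [← div_mul_div_comm]
      exact (hU y hy.1).mul (hV y hy.2)⟩⟩

@[simp] theorem one_eqn (x : A.X) : (1 : CartierDiv A).eqn x = 1 := rfl

@[simp] theorem mul_eqn (D E : CartierDiv A) (x : A.X) :
    (D * E).eqn x = D.eqn x * E.eqn x := rfl

/-- Multiples of a divisor. -/
def npow (D : CartierDiv A) : ℕ → CartierDiv A
  | 0 => 1
  | n + 1 => npow D n * D

@[simp] theorem npow_eqn (D : CartierDiv A) (n : ℕ) (x : A.X) :
    (D.npow n).eqn x = D.eqn x ^ n := by
  induction n with
  | zero => simp [npow]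
  | succ n ih => simp [npow, ih, pow_succ]

/-- The functions with poles bounded by the divisor. -/
def sections (D : CartierDiv A) : Submodule K A.FA where
  carrier := {f | ∀ x, f * D.eqn x ∈ A.localRing x}
  zero_mem' := fun x => by simp
  add_mem' := fun ha hb x => by rw [add_mul]; exact add_mem (ha x) (hb x)
  smul_mem' := fun c f hf x => by
    rw [smul_mul_assoc]
    exact Subalgebra.smul_mem _ (hf x) c

theorem mul_mem_sections {D E : CartierDiv A} {a b : A.FA} (ha : a ∈ D.sections)
    (hb : b ∈ E.sections) : a * b ∈ (D * E).sections := fun x => by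
  rw [mul_eqn, mul_mul_mul_comm]
  exact mul_mem (ha x) (hb x)

end CartierDiv

namespace DomEndo

variable (φ : DomEndo A) {R S : Type u} [CommRing R] [Algebra K R] [CommRing S] [Algebra K S]

/-- The action on points. -/
def act (p : A.Pt R) : A.Pt R :=
  ⟨p.1 ≫ φ.hom, by rw [Category.assoc, φ.w, p.2]⟩

theorem map_act (ψ : R →ₐ[K] S) (p : A.Pt R) : A.map ψ (φ.act p) = φ.act (A.map ψ p) :=
  Subtype.ext (by simp [AVData.map_coe, act])

/-- The induced endomorphism of the function field, as a ring map. -/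
def comapRingHom : A.FA →+* A.FA :=
  ((A.X.presheaf.stalkCongr (Inseparable.of_eq φ.map_generic)).inv ≫
    φ.hom.stalkMap (genericPoint A.X)).hom

theorem comapRingHom_algebraMap (x : A.X) (s : A.X.presheaf.stalk (φ.hom x)) :
    φ.comapRingHom (algebraMap _ A.FA s) = algebraMap _ A.FA (φ.hom.stalkMap x s) := by
  have h : genericPoint A.X ⤳ x := genericPoint_specializes x
  have h1 : genericPoint A.X ⤳ φ.hom x := genericPoint_specializes _
  have h2 : φ.hom (genericPoint A.X) ⤳ genericPoint A.X := specializes_of_eq φ.map_generic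
  show (A.X.presheaf.stalkSpecializes h1 ≫ A.X.presheaf.stalkSpecializes h2 ≫
    φ.hom.stalkMap (genericPoint A.X)) s = (φ.hom.stalkMap x ≫ A.X.presheaf.stalkSpecializes h) s
  rw [← Category.assoc, TopCat.Presheaf.stalkSpecializes_comp,
    ← Scheme.Hom.stalkSpecializes_stalkMap φ.hom _ _ h]

theorem appTop_constTop (c : K) : φ.hom.appTop (A.constTop c) = A.constTop c := by
  show ((Scheme.ΓSpecIso (CommRingCat.of K)).inv ≫ A.str.appTop ≫ φ.hom.appTop) c = _
  rw [← Scheme.Hom.comp_appTop, φ.w]
  rfl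

theorem comapRingHom_commutes (c : K) :
    φ.comapRingHom (algebraMap K A.FA c) = algebraMap K A.FA c := by
  obtain ⟨x, -⟩ : ∃ x : A.X, x = genericPoint A.X := ⟨_, rfl⟩
  have h1 : algebraMap K A.FA c =
      algebraMap _ A.FA (algebraMap K (A.X.presheaf.stalk (φ.hom x)) c) :=
    IsScalarTower.algebraMap_apply K (A.X.presheaf.stalk (φ.hom x)) A.FA c
  have h2 : algebraMap K A.FA c =
      algebraMap _ A.FA (algebraMap K (A.X.presheaf.stalk x) c) :=
    IsScalarTower.algebraMap_apply K (A.X.presheaf.stalk x) A.FA c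
  refine (congrArg φ.comapRingHom h1).trans ?_
  refine ((φ.comapRingHom_algebraMap x _).trans ?_).trans h2.symm
  refine congrArg (algebraMap (A.X.presheaf.stalk x) A.FA) ?_
  rw [AVData.algebraMap_stalk_apply, AVData.algebraMap_stalk_apply]
  exact (Scheme.Hom.germ_stalkMap_apply φ.hom ⊤ x trivial _).trans
    (congrArg _ (φ.appTop_constTop c))

/-- The induced endomorphism of the function field. -/
def comap : A.FA →ₐ[K] A.FA :=
  { φ.comapRingHom with commutes' := φ.comapRingHom_commutes }

theorem comap_algebraMap (x : A.X) (s : A.X.presheaf.stalk (φ.hom x)) :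
    φ.comap (algebraMap _ A.FA s) = algebraMap _ A.FA (φ.hom.stalkMap x s) :=
  φ.comapRingHom_algebraMap x s

theorem comap_mem_localRing {x : A.X} {z : A.FA} (hz : z ∈ A.localRing (φ.hom x)) :
    φ.comap z ∈ A.localRing x := by
  obtain ⟨s, rfl⟩ := hz
  exact ⟨φ.hom.stalkMap x s, (φ.comap_algebraMap x s).symm⟩

theorem isUnitAt_comap {x : A.X} {z : A.FA} (hz : A.IsUnitAt (φ.hom x) z) :
    A.IsUnitAt x (φ.comap z) :=
  ⟨(map_ne_zero φ.comap).mpr hz.1, φ.comap_mem_localRing hz.2.1,
    by rw [← map_inv₀]; exact φ.comap_mem_localRing hz.2.2⟩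

theorem centre_act [IsLocalRing R] (p : A.Pt R) :
    A.centre (φ.act p) = φ.hom (A.centre p) := rfl

theorem evalAt_act [IsLocalRing R] (p : A.Pt R) {z : A.FA}
    (hz : z ∈ A.localRing (A.centre (φ.act p))) :
    A.evalAt (φ.act p) z = A.evalAt p (φ.comap z) := by
  obtain ⟨s, rfl⟩ := hz
  show A.evalAt (φ.act p) (algebraMap _ A.FA s) =
    A.evalAt p (φ.comap (algebraMap (A.X.presheaf.stalk (φ.hom (A.centre p))) A.FA s))
  refine (A.evalAt_algebraMap_stalk (φ.act p) s).trans ?_
  refine Eq.trans ?_ (congrArg (A.evalAt p) (φ.comap_algebraMap (A.centre p) s)).symm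
  refine Eq.trans ?_ (A.evalAt_algebraMap_stalk p _).symm
  exact ConcreteCategory.congr_hom (Scheme.stalkClosedPointTo_comp p.1 φ.hom) s

end DomEndo

namespace CartierDiv

/-- Pullback along a dominant endomorphism. -/
def comap (φ : DomEndo A) (D : CartierDiv A) : CartierDiv A where
  eqn x := φ.comap (D.eqn (φ.hom x))
  eqn_ne_zero x := (map_ne_zero φ.comap).mpr (D.eqn_ne_zero _)
  loc x := by
    obtain ⟨U, hx, hU⟩ := D.loc (φ.hom x)
    refine ⟨φ.hom ⁻¹ᵁ U, hx, fun y hy => ?_⟩
    rw [← map_div₀]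
    exact φ.isUnitAt_comap (hU _ hy)

theorem comap_mem_sections (φ : DomEndo A) {D : CartierDiv A} {f : A.FA}
    (hf : f ∈ D.sections) : φ.comap f ∈ (D.comap φ).sections := fun x => by
  show φ.comap f * φ.comap (D.eqn (φ.hom x)) ∈ _
  rw [← map_mul]
  exact φ.comap_mem_localRing (hf _)

end CartierDiv

end FermatLib.AV.Tors
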