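import Fermat.Agent.AV.Tors.Basic

/-!
# Values of rational functions at points

Local rings of the points of an abelian variety are viewed inside its function field, and rational
functions are evaluated at points with values in local `K`-algebras.
-/

set_option autoImplicit false

noncomputable section

universe u

open CategoryTheory CategoryTheory.Limits AlgebraicGeometry IsLocalRing TopologicalSpace
  NeronModelInfra GoodReductionJacobian

namespace FermatLib.AV.Tors.AVData

variable {K : Type u} [Field K] {g : ℕ} (A : AVData K g)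

/-- The function field. -/
abbrev FA : Type u := A.X.functionField

/-- The constants in the global functions. -/
def constTop : K →+* Γ(A.X, ⊤) :=
  ((Scheme.ΓSpecIso (CommRingCat.of K)).inv ≫ A.str.appTop).hom

/-- The constants in a local ring. -/
def constStalk (x : A.X) : K →+* A.X.presheaf.stalk x :=
  (A.X.presheaf.germ ⊤ x trivial).hom.comp A.constTop

instance algebraStalk (x : A.X) : Algebra K (A.X.presheaf.stalk x) :=
  (A.constStalk x).toAlgebra

theorem algebraMap_stalk_apply (x : A.X) (c : K) :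
    algebraMap K (A.X.presheaf.stalk x) c = A.X.presheaf.germ ⊤ x trivial (A.constTop c) := rfl

instance : Nonempty (⊤ : A.X.Opens) := ⟨⟨genericPoint A.X, trivial⟩⟩

instance (x : A.X) : IsScalarTower K (A.X.presheaf.stalk x) A.FA :=
  IsScalarTower.of_algebraMap_eq fun c =>
    (Scheme.algebraMap_germ_eq_germToFunctionField (X := A.X) (U := ⊤) (x := x) trivial
      (A.constTop c)).symm

/-- The local ring of a point, inside the function field. -/
def localRing (x : A.X) : Subalgebra K A.FA :=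
  (IsScalarTower.toAlgHom K (A.X.presheaf.stalk x) A.FA).range

/-- The local ring of a point is the stalk. -/
def stalkEquiv (x : A.X) : A.X.presheaf.stalk x ≃ₐ[K] A.localRing x :=
  AlgEquiv.ofInjective (IsScalarTower.toAlgHom K (A.X.presheaf.stalk x) A.FA)
    (IsFractionRing.injective (A.X.presheaf.stalk x) A.FA)

theorem stalkEquiv_coe (x : A.X) (s : A.X.presheaf.stalk x) :
    (A.stalkEquiv x s : A.FA) = algebraMap (A.X.presheaf.stalk x) A.FA s := rfl

theorem algebraMap_stalkSpecializes {x y : A.X} (h : y ⤳ x) (s : A.X.presheaf.stalk x) :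
    algebraMap (A.X.presheaf.stalk y) A.FA (A.X.presheaf.stalkSpecializes h s) =
      algebraMap (A.X.presheaf.stalk x) A.FA s := by
  show (A.X.presheaf.stalkSpecializes h ≫ A.X.presheaf.stalkSpecializes _) s = _
  rw [TopCat.Presheaf.stalkSpecializes_comp]
  rfl

theorem localRing_mono {x y : A.X} (h : y ⤳ x) : A.localRing x ≤ A.localRing y := by
  rintro _ ⟨s, rfl⟩
  exact ⟨_, A.algebraMap_stalkSpecializes h s⟩

theorem germ_mem_localRing {U : A.X.Opens} {x : A.X} (hx : x ∈ U) (s : Γ(A.X, U))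
    [Nonempty U] : A.X.germToFunctionField U s ∈ A.localRing x :=
  ⟨A.X.presheaf.germ U x hx s, A.X.algebraMap_germ_eq_germToFunctionField hx s⟩

theorem localRing_genericPoint : A.localRing (genericPoint A.X) = ⊤ := by
  refine eq_top_iff.mpr fun z _ => ⟨z, ?_⟩
  show A.X.presheaf.stalkSpecializes _ z = z
  rw [TopCat.Presheaf.stalkSpecializes_refl]
  rfl

variable {R S : Type u} [CommRing R] [Algebra K R] [IsLocalRing R]
  [CommRing S] [Algebra K S] [IsLocalRing S]

/-- The image of the closed point. -/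
abbrev centre (p : A.Pt R) : A.X := p.1 (closedPoint R)

/-- The local homomorphism of a point. -/
def stalkEval (p : A.Pt R) : A.X.presheaf.stalk (A.centre p) →+* R :=
  (Scheme.stalkClosedPointTo p.1).hom

instance (p : A.Pt R) : IsLocalHom (A.stalkEval p) :=
  Scheme.isLocalHom_stalkClosedPointTo' p.1

theorem preimage_eq_top (p : A.Pt R) {U : A.X.Opens} (hU : A.centre p ∈ U) :
    p.1 ⁻¹ᵁ U = ⊤ :=
  IsLocalRing.closed_point_mem_iff.mp hU

/-- The value at a point of a section over a neighbourhood. -/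
def secEval (p : A.Pt R) (U : A.X.Opens) (hU : A.centre p ∈ U) : Γ(A.X, U) →+* R :=
  (p.1.appLE U ⊤ (A.preimage_eq_top p hU).ge ≫ (Scheme.ΓSpecIso (CommRingCat.of R)).hom).hom

theorem stalkEval_germ (p : A.Pt R) (U : A.X.Opens) (hU : A.centre p ∈ U) (s : Γ(A.X, U)) :
    A.stalkEval p (A.X.presheaf.germ U _ hU s) = A.secEval p U hU s := by
  exact ConcreteCategory.congr_hom (Scheme.germ_stalkClosedPointTo p.1 U hU) s

theorem secEval_constTop (p : A.Pt R) (c : K) :
    A.secEval p ⊤ trivial (A.constTop c) = algebraMap K R c := by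
  show ((Scheme.ΓSpecIso (CommRingCat.of K)).inv ≫ A.str.appTop ≫ p.1.appLE ⊤ ⊤ le_top ≫
    (Scheme.ΓSpecIso (CommRingCat.of R)).hom) c = _
  have h : A.str.appTop ≫ p.1.appLE ⊤ ⊤ le_top = (A.base R).appTop := by
    have : p.1.appLE ⊤ ⊤ le_top = p.1.appTop := by
      simp [Scheme.Hom.appTop, Scheme.Hom.app_eq_appLE]
    rw [this, ← Scheme.Hom.comp_appTop, p.2]
  rw [← Category.assoc A.str.appTop, h, Scheme.ΓSpecIso_naturality,
    Iso.inv_hom_id_assoc]
  rfl

theorem stalkEval_algebraMap (p : A.Pt R) (c : K) :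
    A.stalkEval p (algebraMap K _ c) = algebraMap K R c := by
  exact (A.stalkEval_germ p ⊤ trivial _).trans (A.secEval_constTop p c)

/-- The value at a point of a function regular at its centre. -/
def evalHom (p : A.Pt R) : A.localRing (A.centre p) →ₐ[K] R :=
  ({ A.stalkEval p with commutes' := A.stalkEval_algebraMap p } :
    A.X.presheaf.stalk (A.centre p) →ₐ[K] R).comp (A.stalkEquiv (A.centre p)).symm.toAlgHom

open scoped Classical in
/-- The value at a point, `0` for a function not regular there. -/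
def evalAt (p : A.Pt R) (z : A.FA) : R :=
  if h : z ∈ A.localRing (A.centre p) then A.evalHom p ⟨z, h⟩ else 0

theorem evalAt_of_mem {p : A.Pt R} {z : A.FA} (h : z ∈ A.localRing (A.centre p)) :
    A.evalAt p z = A.evalHom p ⟨z, h⟩ := dif_pos h

theorem evalAt_algebraMap_stalk (p : A.Pt R) (s : A.X.presheaf.stalk (A.centre p)) :
    A.evalAt p (algebraMap _ A.FA s) = A.stalkEval p s := by
  rw [A.evalAt_of_mem (z := algebraMap _ A.FA s) ⟨s, rfl⟩]
  show A.stalkEval p ((A.stalkEquiv _).symm _) = _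
  congr 1
  exact (A.stalkEquiv _).symm_apply_eq.mpr (Subtype.ext rfl)

theorem evalAt_add {p : A.Pt R} {a b : A.FA} (ha : a ∈ A.localRing (A.centre p))
    (hb : b ∈ A.localRing (A.centre p)) :
    A.evalAt p (a + b) = A.evalAt p a + A.evalAt p b := by
  rw [A.evalAt_of_mem ha, A.evalAt_of_mem hb, A.evalAt_of_mem (add_mem ha hb), ← map_add]
  rfl

theorem evalAt_mul {p : A.Pt R} {a b : A.FA} (ha : a ∈ A.localRing (A.centre p))
    (hb : b ∈ A.localRing (A.centre p)) :
    A.evalAt p (a * b) = A.evalAt p a * A.evalAt p b := by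
  rw [A.evalAt_of_mem ha, A.evalAt_of_mem hb, A.evalAt_of_mem (mul_mem ha hb), ← map_mul]
  rfl

theorem evalAt_algebraMap (p : A.Pt R) (c : K) :
    A.evalAt p (algebraMap K A.FA c) = algebraMap K R c := by
  rw [A.evalAt_of_mem (Subalgebra.algebraMap_mem _ c)]
  exact (A.evalHom p).commutes c

@[simp]
theorem evalAt_one (p : A.Pt R) : A.evalAt p 1 = 1 := by
  simpa using A.evalAt_algebraMap p 1

/-- A function which is invertible at `x`. -/
def IsUnitAt (x : A.X) (z : A.FA) : Prop := z ≠ 0 ∧ z ∈ A.localRing x ∧ z⁻¹ ∈ A.localRing x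

variable {A}

theorem IsUnitAt.mono {x y : A.X} {z : A.FA} (hz : A.IsUnitAt x z) (h : y ⤳ x) :
    A.IsUnitAt y z :=
  ⟨hz.1, A.localRing_mono h hz.2.1, A.localRing_mono h hz.2.2⟩

theorem isUnitAt_one (x : A.X) : A.IsUnitAt x 1 :=
  ⟨one_ne_zero, one_mem _, by simp [one_mem]⟩

theorem IsUnitAt.mul {x : A.X} {a b : A.FA} (ha : A.IsUnitAt x a) (hb : A.IsUnitAt x b) :
    A.IsUnitAt x (a * b) :=
  ⟨mul_ne_zero ha.1 hb.1, mul_mem ha.2.1 hb.2.1, by
    rw [mul_inv]; exact mul_mem ha.2.2 hb.2.2⟩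

theorem IsUnitAt.inv {x : A.X} {a : A.FA} (ha : A.IsUnitAt x a) : A.IsUnitAt x a⁻¹ :=
  ⟨inv_ne_zero ha.1, ha.2.2, by rw [inv_inv]; exact ha.2.1⟩

theorem IsUnitAt.evalAt_mul_inv {p : A.Pt R} {z : A.FA}
    (hz : A.IsUnitAt (A.centre p) z) : A.evalAt p z * A.evalAt p z⁻¹ = 1 := by
  rw [← A.evalAt_mul hz.2.1 hz.2.2, mul_inv_cancel₀ hz.1, evalAt_one]

theorem IsUnitAt.isUnit_evalAt {p : A.Pt R} {z : A.FA}
    (hz : A.IsUnitAt (A.centre p) z) : IsUnit (A.evalAt p z) :=
  .of_mul_eq_one _ hz.evalAt_mul_inv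

variable (A)

theorem centre_map_specializes (φ : R →ₐ[K] S) (p : A.Pt R) :
    A.centre (A.map φ p) ⤳ A.centre p :=
  (IsLocalRing.specializes_closedPoint _).map p.1.continuous

theorem centre_map (φ : R →ₐ[K] S) [IsLocalHom φ.toRingHom] (p : A.Pt R) :
    A.centre (A.map φ p) = A.centre p := by
  show p.1.base ((Spec.map (CommRingCat.ofHom φ.toRingHom)).base (closedPoint S)) = _
  congr 1
  exact IsLocalRing.comap_closedPoint φ.toRingHom

theorem secEval_map (φ : R →ₐ[K] S) (p : A.Pt R) (U : A.X.Opens) (h : A.centre p ∈ U)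
    (h' : A.centre (A.map φ p) ∈ U) (s : Γ(A.X, U)) :
    A.secEval (A.map φ p) U h' s = φ (A.secEval p U h s) := by
  show ((Spec.map (CommRingCat.ofHom φ.toRingHom) ≫ p.1).appLE U ⊤ _ ≫
      (Scheme.ΓSpecIso (CommRingCat.of S)).hom) s =
    ((p.1.appLE U ⊤ (A.preimage_eq_top p h).ge ≫ (Scheme.ΓSpecIso (CommRingCat.of R)).hom) ≫
      CommRingCat.ofHom φ.toRingHom) s
  have ht : (Spec.map (CommRingCat.ofHom φ.toRingHom)).appTop =
      (Spec.map (CommRingCat.ofHom φ.toRingHom)).appLE ⊤ ⊤ le_top := by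
    simp [Scheme.Hom.appTop, Scheme.Hom.app_eq_appLE]
  rw [Category.assoc, ← Scheme.ΓSpecIso_naturality, ht, ← Category.assoc]
  exact congrArg (fun m => (ConcreteCategory.hom (m ≫
    (Scheme.ΓSpecIso (CommRingCat.of S)).hom)) s)
    (Scheme.Hom.appLE_comp_appLE _ _ U ⊤ ⊤ (A.preimage_eq_top p h).ge le_top).symm

theorem evalAt_map (φ : R →ₐ[K] S) (p : A.Pt R) {z : A.FA}
    (hz : z ∈ A.localRing (A.centre p)) :
    A.evalAt (A.map φ p) z = φ (A.evalAt p z) := by
  obtain ⟨s, rfl⟩ := hz
  obtain ⟨U, hU, t, rfl⟩ := A.X.presheaf.exists_germ_eq s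
  have : Nonempty U := ⟨⟨_, hU⟩⟩
  have hU' : A.centre (A.map φ p) ∈ U := (A.centre_map_specializes φ p).mem_open U.isOpen hU
  show A.evalAt (A.map φ p) (algebraMap _ A.FA (A.X.presheaf.germ U _ hU t)) =
    φ (A.evalAt p (algebraMap _ A.FA (A.X.presheaf.germ U _ hU t)))
  have e : algebraMap _ A.FA (A.X.presheaf.germ U _ hU t) =
      algebraMap _ A.FA (A.X.presheaf.germ U _ hU' t) :=
    (A.X.algebraMap_germ_eq_germToFunctionField hU t).trans
      (A.X.algebraMap_germ_eq_germToFunctionField hU' t).symm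
  rw [evalAt_algebraMap_stalk, e, evalAt_algebraMap_stalk]
  exact ((A.stalkEval_germ _ U hU' t).trans (A.secEval_map φ p U hU hU' t)).trans
    (congrArg φ (A.stalkEval_germ p U hU t).symm)

end FermatLib.AV.Tors.AVData
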